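import Fermat.Agent.MR.Contracts

/-!
# MR / H / In : proof of `MR.InStatement` ([H-IN] + [H-NEW]).  Definitions.

`Rel M₁ p good a R u` : the root `u` of a Kummer generator of level `M₁ p` and exponent `p` satisfies all the relations required in
`MR.Emb` (elementwise form of "the class of `u` lies in the `p`-new eigenspace").
-/

set_option autoImplicit false

open ModularCurve AlgebraicCurve

noncomputable section

namespace Fermat.Agent.MR.H.In

open Fermat.Agent.GAL Fermat.Agent.GR Fermat.Agent.MR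

/-- the relations of `MR.Emb`, for one root `u`. -/
structure Rel (M₁ p : ℕ) [NeZero M₁] [NeZero p] (good : Set ℕ) (a : ℕ → ℤ) (R : Polynomial ℤ)
    (u : LaurentSeries Qb) : Prop where
  kum : IsKum Qb (M₁ * p) p u
  hT : ∀ (ℓ : ℕ) [NeZero ℓ], ℓ ∈ good → heckeS Qb ℓ u / u ^ a ℓ ∈ FL Qb (M₁ * p)
  hU2 : polyRel 2 R u ∈ FL Qb (M₁ * p)
  hUp : NmL Qb p (NmL Qb p u) / u ∈ FL Qb (M₁ * p)
  new : IsNew M₁ p u

end Fermat.Agent.MR.H.In
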