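import Fermat.Agent.MR.H.Top3
import Fermat.Agent.MR.H.Desc

/-!
# MR / H / In / LatY : descent of the eigenvector to `Lat N / p`
-/

set_option autoImplicit false

open scoped TensorProduct
open Fermat.Agent.S41

namespace Fermat.Agent.MR.H.In

open Fermat.Agent.MR.H

/-- **MR-H-IN-LATY** -/
theorem exists_latY (W : WeierstrassCurve ℤ) {p : ℕ} (hp : p.Prime) {K : Type} [Field K]
    [CharP K p] (N : ℕ) [NeZero N] (a : ℕ → K) (R : Polynomial ℤ)
    (ha : ∀ ℓ ∈ goodSet W N, a ℓ = ((W.apOfModel ℓ : ℤ) : K))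
    (hR : Polynomial.aeval (a 2) R = 0) (hap : a p ^ 2 = 1) (hocc : Occ K N Set.univ a) :
    ∃ y : S41.Lat N, (¬ ∃ z : S41.Lat N, y = (p : ℤ) • z) ∧
      (∀ ℓ ∈ goodSet W N, ∃ z : S41.Lat N, op N ℓ y - W.apOfModel ℓ • y = (p : ℤ) • z) ∧
      (∃ z : S41.Lat N, Polynomial.aeval (op N 2) R y = (p : ℤ) • z) ∧
      (∃ z : S41.Lat N, op N p (op N p y) - y = (p : ℤ) • z) := by
  haveI : Fact p.Prime := ⟨hp⟩
  obtain ⟨x, hx0, hx⟩ := hocc
  let D : Option (Option (goodSet W N)) → Module.End ℤ (S41.Lat N) := fun i =>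
    match i with
    | none => Polynomial.aeval (op N 2) R
    | some none => op N p * op N p - 1
    | some (some ℓ) => op N (ℓ : ℕ) - W.apOfModel (ℓ : ℕ) • (1 : Module.End ℤ (S41.Lat N))
  have hone : (1 : Module.End ℤ (S41.Lat N)).baseChange K x = x := by
    rw [Module.End.one_eq_id, LinearMap.baseChange_id]
    rfl
  obtain ⟨y, hy, hD⟩ := exists_mod_p_eigen (p := p) (K := K) D x hx0 (by
    intro i
    match i with
    | none =>
      change (Polynomial.aeval (op N 2) R).baseChange K x = 0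
      rw [Asc_aeval_baseChange (op N 2) R (a 2) x (hx 2 (Set.mem_univ _) Nat.prime_two), hR,
        zero_smul]
    | some none =>
      change (op N p * op N p - 1).baseChange K x = 0
      rw [LinearMap.baseChange_sub, LinearMap.sub_apply, hone, Module.End.mul_eq_comp,
        LinearMap.baseChange_comp, LinearMap.comp_apply, hx p (Set.mem_univ _) hp, map_smul,
        hx p (Set.mem_univ _) hp, smul_smul, ← pow_two, hap, one_smul, sub_self]
    | some (some ℓ) =>
      change (op N (ℓ : ℕ) - W.apOfModel (ℓ : ℕ) • (1 : Module.End ℤ (S41.Lat N))).baseChange K x = 0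
      rw [LinearMap.baseChange_sub, LinearMap.sub_apply, LinearMap.baseChange_smul,
        LinearMap.smul_apply, hone, hx ℓ (Set.mem_univ _) ℓ.2.1, ha ℓ ℓ.2,
        Int.cast_smul_eq_zsmul, sub_self])
  refine ⟨y, hy, fun ℓ hℓ => ?_, hD none, ?_⟩
  · obtain ⟨z, hz⟩ := hD (some (some ⟨ℓ, hℓ⟩))
    exact ⟨z, hz⟩
  · obtain ⟨z, hz⟩ := hD (some none)
    exact ⟨z, hz⟩

end Fermat.Agent.MR.H.In
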