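import Fermat.Agent.MR.H.URange

/-!
# MR / H / In / ResInj : restriction from level `N` to level `N q`, `q ∤ N`, is injective on parabolic homs
-/

set_option autoImplicit false
open CongruenceSubgroup Matrix ModularCurve.Period
open scoped MatrixGroups
open Fermat.Agent.S41

namespace Fermat.Agent.MR.H.In

open Fermat.Agent.MR.H

/-- the case `q ∤ d`. -/
theorem ResInj_aux (N q : ℕ) [NeZero N] (hq : q.Prime)
    {R : Type*} [AddCommGroup R] (φ : Additive (Gamma0 N) →+ R) (hφ : IsParabolicHom (Gamma0 N) φ)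
    (h : res₁ N q R φ = 0) (γ : Gamma0 N) (hd : ¬ (q : ℤ) ∣ (γ : SL(2, ℤ)) 1 1) :
    φ (Additive.ofMul γ) = 0 := by
  obtain ⟨a, b, c, d, hγ, hdet⟩ := URange_entries (γ : SL(2, ℤ))
  have hc10 : (γ : SL(2, ℤ)) 1 0 = c := by
    show ((γ : SL(2, ℤ)) : Matrix (Fin 2) (Fin 2) ℤ) 1 0 = c
    rw [hγ]; rfl
  have hd11 : (γ : SL(2, ℤ)) 1 1 = d := by
    show ((γ : SL(2, ℤ)) : Matrix (Fin 2) (Fin 2) ℤ) 1 1 = d
    rw [hγ]; rfl
  rw [hd11] at hd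
  obtain ⟨c₁, hc₁⟩ : (N : ℤ) ∣ c := hc10 ▸ dvd_of_mem_Gamma0 γ
  obtain ⟨u, w, huw⟩ := ((Nat.prime_iff_prime_int.1 hq).irreducible.coprime_iff_not_dvd).2 hd
  let δ : Gamma0 N := ⟨URange_mkSL 1 0 ((N : ℤ) * (-c₁ * w)) 1 (by ring),
    URange_mkSL_mem _ _ _ _ _ _ (Dvd.intro _ rfl)⟩
  have hδ : φ (Additive.ofMul δ) = 0 := by
    apply hφ
    show (!![1, 0; (N : ℤ) * (-c₁ * w), 1] : Matrix (Fin 2) (Fin 2) ℤ).trace ^ 2 = 4
    rw [Matrix.trace_fin_two_of]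
    norm_num
  have hmem : ((γ * δ : Gamma0 N) : SL(2, ℤ)) ∈ Gamma0 (N * q) := by
    rw [Gamma0_mem, ZMod.intCast_zmod_eq_zero_iff_dvd]
    have e : ((γ * δ : Gamma0 N) : SL(2, ℤ)) 1 0 = c + d * ((N : ℤ) * (-c₁ * w)) := by
      show (((γ : SL(2, ℤ)) : Matrix (Fin 2) (Fin 2) ℤ) *
        (!![1, 0; (N : ℤ) * (-c₁ * w), 1] : Matrix (Fin 2) (Fin 2) ℤ)) 1 0 = _
      rw [hγ]
      simp [Matrix.mul_apply, Fin.sum_univ_two]
    rw [e]
    refine ⟨c₁ * u, ?_⟩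
    push_cast
    linear_combination hc₁ - (N : ℤ) * c₁ * huw
  have h1 := DFunLike.congr_fun h (Additive.ofMul (⟨_, hmem⟩ : Gamma0 (N * q)))
  rw [res₁_apply] at h1
  have h2 : φ (Additive.ofMul (γ * δ)) = 0 := h1
  rw [ofMul_mul, map_add, hδ, add_zero] at h2
  exact h2

/-- **MR-H-IN-RESINJ** -/
theorem res₁_injective_of_not_dvd (N q : ℕ) [NeZero N] (hq : q.Prime) (hqN : ¬ q ∣ N)
    {R : Type*} [AddCommGroup R] (φ : Additive (Gamma0 N) →+ R) (hφ : IsParabolicHom (Gamma0 N) φ)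
    (h : res₁ N q R φ = 0) : φ = 0 := by
  refine DFunLike.ext _ _ fun γ₀ => ?_
  obtain ⟨γ, rfl⟩ := Additive.ofMul.surjective γ₀
  rw [AddMonoidHom.zero_apply]
  by_cases hd : (q : ℤ) ∣ (γ : SL(2, ℤ)) 1 1
  · obtain ⟨a, b, c, d, hγ, hdet⟩ := URange_entries (γ : SL(2, ℤ))
    have hd11 : (γ : SL(2, ℤ)) 1 1 = d := by
      show ((γ : SL(2, ℤ)) : Matrix (Fin 2) (Fin 2) ℤ) 1 1 = d
      rw [hγ]; rfl
    rw [hd11] at hd
    let T : Gamma0 N := ⟨URange_mkSL 1 1 0 1 (by ring), URange_mkSL_mem _ _ _ _ _ _ (dvd_zero _)⟩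
    have hT : φ (Additive.ofMul T) = 0 := by
      apply hφ
      show (!![1, 1; 0, 1] : Matrix (Fin 2) (Fin 2) ℤ).trace ^ 2 = 4
      rw [Matrix.trace_fin_two_of]
      norm_num
    have e : ((γ * T : Gamma0 N) : SL(2, ℤ)) 1 1 = c + d := by
      show (((γ : SL(2, ℤ)) : Matrix (Fin 2) (Fin 2) ℤ) *
        (!![1, 1; 0, 1] : Matrix (Fin 2) (Fin 2) ℤ)) 1 1 = _
      rw [hγ]
      simp [Matrix.mul_apply, Fin.sum_univ_two]
    have hnd : ¬ (q : ℤ) ∣ ((γ * T : Gamma0 N) : SL(2, ℤ)) 1 1 := by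
      rw [e]
      intro hcd
      have hc : (q : ℤ) ∣ c := (Int.dvd_add_left hd).1 hcd
      have h1 : (q : ℤ) ∣ 1 := by
        rw [← hdet]
        exact dvd_sub (Dvd.dvd.mul_left hd _) (Dvd.dvd.mul_left hc _)
      have h2 : q ∣ 1 := by exact_mod_cast h1
      exact hq.one_lt.ne' (Nat.dvd_one.1 h2)
    have h2 := ResInj_aux N q hq φ hφ h (γ * T) hnd
    rw [ofMul_mul, map_add, hT, add_zero] at h2
    exact h2
  · exact ResInj_aux N q hq φ hφ h γ hd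

end Fermat.Agent.MR.H.In
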