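import Fermat.Agent.MR.H.Top3
import Fermat.Agent.MR.H.QIW
import Fermat.Agent.MR.H.In.ResInj

/-!
# MR / H / In / Trace : `W y + U_p y ∈ p Lat (M p)` for a mod `p` eigenclass `y` whose system does not
occur at level `M`
-/

set_option autoImplicit false
open CongruenceSubgroup Matrix ModularCurve.Period
open scoped MatrixGroups
open Fermat.Agent.GAL Fermat.Agent.GAL.HK Fermat.Agent.S41

namespace Fermat.Agent.MR.H.In

open Fermat.Agent.MR.H

/-- polynomials in intertwined endomorphisms are intertwined. -/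
theorem aeval_intertwine {A B : Type*} [AddCommGroup A] [AddCommGroup B] (φ : A →ₗ[ℤ] B)
    (α : Module.End ℤ A) (β : Module.End ℤ B) (h : ∀ a, φ (α a) = β (φ a)) (Q : Polynomial ℤ)
    (a : A) : φ (Polynomial.aeval α Q a) = Polynomial.aeval β Q (φ a) := by
  have hpow : ∀ (n : ℕ) (a : A), φ ((α ^ n) a) = (β ^ n) (φ a) := by
    intro n
    induction n with
    | zero => intro a; simp
    | succ n ih =>
      intro a
      rw [pow_succ, pow_succ, Module.End.mul_apply, Module.End.mul_apply, ih, h]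
  induction Q using Polynomial.induction_on' with
  | add P Q hP hQ => rw [map_add, map_add, LinearMap.add_apply, LinearMap.add_apply, map_add, hP, hQ]
  | monomial n c =>
    rw [Polynomial.aeval_monomial, Polynomial.aeval_monomial, Module.End.mul_apply,
      Module.End.mul_apply, Module.algebraMap_end_apply, Module.algebraMap_end_apply, map_smul, hpow]

variable (M p : ℕ) [NeZero M] [NeZero p] {x y' : ℤ} (hxy : (p : ℤ) * x - M * y' = 1)
  (hp : p.Prime) (hpM : ¬ p ∣ M)

/-- `τ = W + U_p` on `Lat (M p)`. -/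
noncomputable def tauW : S41.Lat (M * p) →ₗ[ℤ] S41.Lat (M * p) where
  toFun y := ⟨Wop M p hxy hp.ne_zero ℤ (y : Additive (Gamma0 (M * p)) →+ ℤ),
      Wop_isParabolicHom M p hxy hp.ne_zero y.2⟩ + latU (M * p) hp (Dvd.intro_left M rfl) y
  map_add' a b := by
    apply Subtype.ext
    simp only [map_add, Submodule.coe_add]
    abel
  map_smul' c a := by
    apply Subtype.ext
    simp only [map_smul, Submodule.coe_add, Submodule.coe_smul, RingHom.id_apply, smul_add,
      map_zsmul]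

theorem coe_tauW (y : S41.Lat (M * p)) :
    (tauW M p hxy hp y : Additive (Gamma0 (M * p)) →+ ℤ) =
      Wop M p hxy hp.ne_zero ℤ (y : Additive (Gamma0 (M * p)) →+ ℤ) +
        cohU (M * p) hp (Dvd.intro_left M rfl) ℤ (y : Additive (Gamma0 (M * p)) →+ ℤ) := rfl

include hpM in
/-- `τ y` comes from level `M`. -/
theorem exists_lres₁_eq_tauW (y : S41.Lat (M * p)) :
    ∃ t : S41.Lat M, lres₁ M p t = tauW M p hxy hp y := by
  obtain ⟨-, φ₂, -, h₂, -, hres⟩ := exists_traces M p hxy hp.ne_zero hp hpM (Dvd.intro_left M rfl)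
    (φ := (y : Additive (Gamma0 (M * p)) →+ ℤ)) y.2
  exact ⟨⟨φ₂, h₂⟩, Subtype.ext hres⟩

include hp hpM in
theorem lres₁_injective : Function.Injective (lres₁ M p) := by
  rw [injective_iff_map_eq_zero]
  intro t ht
  apply Subtype.ext
  exact res₁_injective_of_not_dvd M p hp hpM _ t.2 (congrArg Subtype.val ht)

include hpM in
/-- `τ` commutes with the Hecke operators away from `p`. -/
theorem op_tauW {ℓ : ℕ} (hℓ : ℓ.Prime) (hℓp : ℓ ≠ p) (y : S41.Lat (M * p)) :
    op (M * p) ℓ (tauW M p hxy hp y) = tauW M p hxy hp (op (M * p) ℓ y) := by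
  have hU : op (M * p) ℓ (latU (M * p) hp (Dvd.intro_left M rfl) y)
      = latU (M * p) hp (Dvd.intro_left M rfl) (op (M * p) ℓ y) := by
    have h := (op_comm (M * p) ℓ p).eq
    rw [op_of_dvd (M * p) hp (Dvd.intro_left M rfl)] at h
    exact congrArg (fun f : Module.End ℤ (S41.Lat (M * p)) => f y) h
  have hW : op (M * p) ℓ ⟨Wop M p hxy hp.ne_zero ℤ (y : Additive (Gamma0 (M * p)) →+ ℤ),
      Wop_isParabolicHom M p hxy hp.ne_zero y.2⟩ =
      ⟨Wop M p hxy hp.ne_zero ℤ ((op (M * p) ℓ y : S41.Lat (M * p)) :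
        Additive (Gamma0 (M * p)) →+ ℤ), Wop_isParabolicHom M p hxy hp.ne_zero (op (M * p) ℓ y).2⟩ := by
    apply Subtype.ext
    by_cases h : ℓ ∣ M * p
    · have hℓM : ℓ ∣ M := by
        rcases hℓ.dvd_mul.mp h with h | h
        · exact h
        · exact absurd ((Nat.prime_dvd_prime_iff_eq hℓ hp).mp h) hℓp
      rw [op_of_dvd (M * p) hℓ h]
      exact cohU_Wop M p hxy hp hpM hℓ hℓM h y.2
    · rw [op_of_not_dvd (M * p) hℓ h]
      exact cohT_Wop M p hxy hp hpM hℓ h y.2
  show op (M * p) ℓ (_ + _) = _ + _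
  rw [map_add, hU, hW]

include hpM in
/-- **the trace of a mod `p` eigenclass vanishes mod `p`** if the system does not occur at level `M`. -/
theorem tauW_eq_smul (W : WeierstrassCurve ℤ) {K : Type} [Field K] [IsAlgClosed K] [CharP K p]
    (h2M : 2 ∣ M) (hp2 : p ≠ 2) (a : ℕ → K) (R : Polynomial ℤ)
    (ha : ∀ ℓ ∈ goodSet W (M * p), a ℓ = ((W.apOfModel ℓ : ℤ) : K))
    (hnew : ∀ α : K, Polynomial.aeval α R = 0 →
      ¬ Occ K M (insert 2 (goodSet W (M * p))) (Function.update a 2 α))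
    (y : S41.Lat (M * p))
    (hE : ∀ ℓ ∈ goodSet W (M * p), ∃ z : S41.Lat (M * p),
      op (M * p) ℓ y - W.apOfModel ℓ • y = (p : ℤ) • z)
    (hR : ∃ z : S41.Lat (M * p), Polynomial.aeval (op (M * p) 2) R y = (p : ℤ) • z) :
    ∃ z : S41.Lat (M * p), tauW M p hxy hp y = (p : ℤ) • z := by
  obtain ⟨t, ht⟩ := exists_lres₁_eq_tauW M p hxy hp hpM y
  have hinj := lres₁_injective M p hp hpM
  obtain ⟨z₀, hz₀⟩ := mod_p_eq_zero_of_not_occ (p := p) W M (M * p) a R ha hnew t
    (by
      intro ℓ hℓ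
      obtain ⟨z, hz⟩ := hE ℓ hℓ
      obtain ⟨tz, htz⟩ := exists_lres₁_eq_tauW M p hxy hp hpM z
      refine ⟨tz, hinj ?_⟩
      have hℓp : ℓ ≠ p := by
        rintro rfl
        exact hℓ.2.2 (Dvd.intro_left M rfl)
      rw [map_sub, map_smul, map_smul, htz, ← op_lres₁ M p hℓ.1 (Or.inr hℓ.2.2), ht,
        op_tauW M p hxy hp hpM hℓ.1 hℓp, ← map_smul, ← map_sub, hz, map_smul])
    (by
      obtain ⟨z, hz⟩ := hR
      obtain ⟨tz, htz⟩ := exists_lres₁_eq_tauW M p hxy hp hpM z
      refine ⟨tz, hinj ?_⟩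
      rw [map_smul, htz,
        aeval_intertwine (lres₁ M p) (op M 2) (op (M * p) 2)
          (fun a => (op_lres₁ M p Nat.prime_two (Or.inl h2M) a).symm) R t, ht,
        ← aeval_intertwine (tauW M p hxy hp) (op (M * p) 2) (op (M * p) 2)
          (fun a => (op_tauW M p hxy hp hpM Nat.prime_two (Ne.symm hp2) a).symm) R y, hz, map_smul])
  exact ⟨lres₁ M p z₀, by rw [← ht, hz₀, map_smul]⟩

end Fermat.Agent.MR.H.In
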