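import Fermat.Agent.MR.Contracts
import Fermat.Agent.TOR.AnU.Main
import Fermat.Agent.GAL.Mod.Gen

/-!
# MR / H / In / VanY : relations modulo `p` in `Lat N` give relations for analytic Kummer elements
-/

set_option autoImplicit false

open Fermat.Agent.GAL Fermat.Agent.GAL.AN Fermat.Agent.GAL.HK Fermat.Agent.TOR

noncomputable section

namespace Fermat.Agent.MR.H.In

open Fermat.Agent.MR.H

variable {N p : ℕ} [NeZero N] [NeZero p]

/-! ### bookkeeping for `chrFun` -/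

theorem VanY_chrFun_div (a b : Van N p) : chrFun (a / b) = chrFun a - chrFun b :=
  congrArg Multiplicative.toAdd (map_div (chr N p) a b)

theorem VanY_chrFun_zpow (a : Van N p) (c : ℤ) : chrFun (a ^ c) = c • chrFun a :=
  congrArg Multiplicative.toAdd (map_zpow (chr N p) a c)

theorem VanY_chrFun_prod {ι : Type*} (s : Finset ι) (f : ι → Van N p) :
    chrFun (∏ i ∈ s, f i) = ∑ i ∈ s, chrFun (f i) := by
  have h := congrArg Multiplicative.toAdd (map_prod (chr N p) f s)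
  rw [toAdd_prod] at h
  exact h

/-- an analytic element whose character is the reduction of a multiple of `p` has level `N`. -/
theorem VanY_mem_of (v : Van N p) (x : S41.Lat N) (hv : chrFun v = latRed N p x)
    (h : ∃ z : S41.Lat N, x = (p : ℤ) • z) : ((v : LU) : LaurentSeries Qb) ∈ FL Qb N := by
  rw [← chrFun_eq_zero_iff, hv, latRed_eq_zero_iff]
  obtain ⟨z, rfl⟩ := h
  exact ⟨z, natCast_zsmul z p⟩

omit [NeZero N] [NeZero p] in
theorem VanY_latRed_latU {q : ℕ} (hq : q.Prime) (hqN : q ∣ N) (x : S41.Lat N) :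
    (latRed N p (latU N hq hqN x) : Additive (CongruenceSubgroup.Gamma0 N) →+ ZMod p) =
      cohU N hq hqN (ZMod p) (latRed N p x : Additive (CongruenceSubgroup.Gamma0 N) →+ ZMod p) := by
  rw [coe_latRed, coe_latRed, coe_latU_apply]
  exact ((datumU N hq hqN).T_comp (Int.castAddHom (ZMod p)) _).symm

theorem VanY_chrFun_hecke (y : S41.Lat N) (u : Van N p) (hu : chrFun u = latRed N p y)
    (ℓ : ℕ) [NeZero ℓ] (hℓ : ℓ.Prime) (hℓN : ¬ ℓ ∣ N) :
    chrFun (⟨_, hecke_mem_Van ℓ hℓ hℓN u u.2⟩ : Van N p) = latRed N p (op N ℓ y) := by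
  apply Subtype.ext
  rw [op_of_not_dvd N hℓ hℓN, latRed_latT, ← hu]
  exact chrFun_hecke ℓ hℓ hℓN u

theorem VanY_chrFun_nmU (y : S41.Lat N) (u : Van N p) (hu : chrFun u = latRed N p y)
    (r : ℕ) [NeZero r] (hr : r.Prime) (hrN : r ∣ N) :
    chrFun (⟨_, nmU_mem_Van hr hrN u u.2⟩ : Van N p) = latRed N p (op N r y) := by
  apply Subtype.ext
  rw [op_of_dvd N hr hrN, VanY_latRed_latU, ← hu]
  exact chrFun_nmU hr hrN u

/-- the iterates of `U_r` on `Van`. -/
def VanY_it (r : ℕ) [NeZero r] (hr : r.Prime) (hrN : r ∣ N) (u : Van N p) : ℕ → Van N p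
  | 0 => u
  | i + 1 => ⟨_, nmU_mem_Van hr hrN (VanY_it r hr hrN u i) (VanY_it r hr hrN u i).2⟩

theorem VanY_coe_it (r : ℕ) [NeZero r] (hr : r.Prime) (hrN : r ∣ N) (u : Van N p) (i : ℕ) :
    ((VanY_it r hr hrN u i : LU) : LaurentSeries Qb) =
      (NmL Qb r)^[i] ((u : LU) : LaurentSeries Qb) := by
  induction i with
  | zero => rfl
  | succ i ih =>
    rw [Function.iterate_succ_apply', ← ih]
    rfl

theorem VanY_chrFun_it (y : S41.Lat N) (u : Van N p) (hu : chrFun u = latRed N p y)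
    (r : ℕ) [NeZero r] (hr : r.Prime) (hrN : r ∣ N) (i : ℕ) :
    chrFun (VanY_it r hr hrN u i) = latRed N p ((op N r ^ i) y) := by
  induction i with
  | zero => rw [pow_zero, Module.End.one_apply]; exact hu
  | succ i ih =>
    rw [pow_succ', Module.End.mul_apply]
    exact VanY_chrFun_nmU _ _ ih r hr hrN

/-- **MR-H-IN-VANT** -/
theorem heckeU_div_mem (y : S41.Lat N) (u : Van N p) (hu : chrFun u = latRed N p y)
    (ℓ : ℕ) [NeZero ℓ] (hℓ : ℓ.Prime) (hℓN : ¬ ℓ ∣ N) (c : ℤ)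
    (h : ∃ z : S41.Lat N, op N ℓ y - c • y = (p : ℤ) • z) :
    heckeU ℓ (u : LU) / (u : LU) ^ c ∈ FLu N := by
  rw [mem_FLu]
  refine VanY_mem_of ((⟨_, hecke_mem_Van ℓ hℓ hℓN u u.2⟩ : Van N p) / u ^ c) _ ?_ h
  rw [VanY_chrFun_div, VanY_chrFun_zpow, VanY_chrFun_hecke y u hu ℓ hℓ hℓN, hu, map_sub,
    map_zsmul]

/-- **MR-H-IN-VANU** -/
theorem polyRel_mem (y : S41.Lat N) (u : Van N p) (hu : chrFun u = latRed N p y)
    (r : ℕ) [NeZero r] (hr : r.Prime) (hrN : r ∣ N) (R : Polynomial ℤ)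
    (h : ∃ z : S41.Lat N, Polynomial.aeval (op N r) R y = (p : ℤ) • z) :
    polyRel r R ((u : LU) : LaurentSeries Qb) ∈ FL Qb N := by
  have e : polyRel r R ((u : LU) : LaurentSeries Qb) =
      (((∏ i ∈ R.support, VanY_it r hr hrN u i ^ R.coeff i : Van N p) : LU) :
        LaurentSeries Qb) := by
    rw [polyRel, Subgroup.val_finsetProd, Units.coe_prod]
    refine Finset.prod_congr rfl fun i _ => ?_
    rw [Subgroup.coe_zpow, Units.val_zpow_eq_zpow_val, VanY_coe_it]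
  rw [e]
  refine VanY_mem_of _ _ ?_ h
  rw [VanY_chrFun_prod, Polynomial.aeval_def, Polynomial.eval₂_eq_sum, Polynomial.sum_def,
    LinearMap.sum_apply, map_sum]
  refine Finset.sum_congr rfl fun i _ => ?_
  rw [VanY_chrFun_zpow, VanY_chrFun_it y u hu r hr hrN, Module.End.mul_apply,
    Module.algebraMap_end_apply, map_zsmul]

/-- **MR-H-IN-VANU** -/
theorem NmL_NmL_div_mem (y : S41.Lat N) (u : Van N p) (hu : chrFun u = latRed N p y)
    (r : ℕ) [NeZero r] (hr : r.Prime) (hrN : r ∣ N)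
    (h : ∃ z : S41.Lat N, op N r (op N r y) - y = (p : ℤ) • z) :
    NmL Qb r (NmL Qb r ((u : LU) : LaurentSeries Qb)) / ((u : LU) : LaurentSeries Qb) ∈ FL Qb N := by
  have e : NmL Qb r (NmL Qb r ((u : LU) : LaurentSeries Qb)) / ((u : LU) : LaurentSeries Qb) =
      (((VanY_it r hr hrN u 2 / u : Van N p) : LU) : LaurentSeries Qb) := by
    rw [Subgroup.coe_div, Units.val_div_eq_div_val, VanY_coe_it]
    rfl
  rw [e]
  refine VanY_mem_of _ _ ?_ h
  rw [VanY_chrFun_div, VanY_chrFun_it y u hu r hr hrN, hu, map_sub]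
  rfl

end Fermat.Agent.MR.H.In
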