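import Fermat.Agent.MR.H.New
import Fermat.Agent.MR.H.In.Defs
import Fermat.Agent.MR.H.In.LatY
import Fermat.Agent.MR.H.In.VanY
import Fermat.Agent.MR.H.In.Trace

/-!
# MR / H / In / Analytic : (IN-2) the analytic input of `MR.InStatement`

Under the hypotheses of `MR.InStatement` there is an analytic Kummer element `u₀ ∈ Van (N' p) p`, not in `FL Qb (N' p)`, which satisfies all the
relations `Rel`.
-/

set_option autoImplicit false

open CongruenceSubgroup
open Fermat.Agent.GAL Fermat.Agent.GAL.AN Fermat.Agent.GAL.HK Fermat.Agent.TOR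

noncomputable section

namespace Fermat.Agent.MR.H.In

open Fermat.Agent.MR.H

theorem admLevel_mul {M : ℕ} (hM : AdmLevel M) (k : ℕ) : AdmLevel (M * k) := by
  rcases hM with h | h
  · exact Or.inl (Dvd.dvd.mul_right h k)
  · exact Or.inr (Dvd.dvd.mul_right h k)

/-- the character of an analytic element attached to `y` is killed by `W + U_p` if `τ y ∈ p Lat`. -/
theorem wop_add_cohU_eq_zero (M p : ℕ) [NeZero M] [NeZero p] {x y' : ℤ}
    (hxy : (p : ℤ) * x - M * y' = 1) (hp : p.Prime) (y : S41.Lat (M * p)) (u : Van (M * p) p)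
    (hu : chrFun u = latRed (M * p) p y)
    (h : ∃ z : S41.Lat (M * p), tauW M p hxy hp y = (p : ℤ) • z) :
    Wop M p hxy (NeZero.ne p) (ZMod p) (HPar.hom (chrFun u))
      + cohU (M * p) hp (Dvd.intro_left M rfl) (ZMod p) (HPar.hom (chrFun u)) = 0 := by
  have h0 : latRed (M * p) p (tauW M p hxy hp y) = 0 := by
    rw [latRed_eq_zero_iff]
    obtain ⟨z, hz⟩ := h
    exact ⟨z, by rw [hz, natCast_zsmul]⟩
  have h1 := congrArg Subtype.val h0
  rw [hu]
  have h2 : (latRed (M * p) p (tauW M p hxy hp y) : Additive (Gamma0 (M * p)) →+ ZMod p) =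
      Wop M p hxy (NeZero.ne p) (ZMod p) (HPar.hom (latRed (M * p) p y))
      + cohU (M * p) hp (Dvd.intro_left M rfl) (ZMod p) (HPar.hom (latRed (M * p) p y)) := by
    have e : tauW M p hxy hp y = ⟨Wop M p hxy hp.ne_zero ℤ (y : Additive (Gamma0 (M * p)) →+ ℤ),
      Wop_isParabolicHom M p hxy hp.ne_zero y.2⟩ + latU (M * p) hp (Dvd.intro_left M rfl) y := rfl
    rw [e, map_add]
    show (latRed (M * p) p _ : Additive (Gamma0 (M * p)) →+ ZMod p)
      + (latRed (M * p) p _ : Additive (Gamma0 (M * p)) →+ ZMod p) = _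
    rw [VanY_latRed_latU]
    rfl
  rw [← h2]
  exact h1

/-- **(IN-2)** -/
theorem exists_analytic (W : WeierstrassCurve ℤ) {p : ℕ} [NeZero p] (hp : p.Prime) (hp2 : p ≠ 2)
    {K : Type} [Field K] [IsAlgClosed K] [CharP K p] (N' : ℕ) [NeZero N'] (a : ℕ → K)
    (R : Polynomial ℤ) (hpN : ¬ p ∣ N') (hN : AdmLevel N') (h2 : 2 ∣ N')
    (ha : ∀ ℓ ∈ goodSet W (N' * p), a ℓ = ((W.apOfModel ℓ : ℤ) : K))
    (hR : Polynomial.aeval (a 2) R = 0) (hap : a p ^ 2 = 1)
    (hocc : Occ K (N' * p) Set.univ a)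
    (hnew : ∀ α : K, Polynomial.aeval α R = 0 →
      ¬ Occ K N' (insert 2 (goodSet W (N' * p))) (Function.update a 2 α)) :
    ∃ u₀ : Van (N' * p) p, (u₀ : LU) ∉ FLu (N' * p) ∧
      Rel N' p (goodSet W (N' * p)) (fun ℓ => W.apOfModel ℓ) R ((u₀ : LU) : LaurentSeries Qb) := by
  obtain ⟨y, hy0, hE, hRy, hUp⟩ := exists_latY W hp (N' * p) a R ha hR hap hocc
  have hN' : AdmLevel (N' * p) := admLevel_mul hN p
  obtain ⟨u, hu⟩ := chrFun_surjective hN' (latRed (N' * p) p y)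
  obtain ⟨x, y', hxy⟩ : ∃ x y' : ℤ, (p : ℤ) * x - N' * y' = 1 := by
    have hc : IsCoprime (p : ℤ) (N' : ℤ) :=
      Nat.isCoprime_iff_coprime.mpr ((Nat.Prime.coprime_iff_not_dvd hp).mpr hpN)
    obtain ⟨s, t, hst⟩ := hc
    exact ⟨s, -t, by linarith⟩
  refine ⟨u, ?_, ?_, ?_, ?_, ?_, ?_⟩
  · rw [mem_FLu, ← chrFun_eq_zero_iff, hu, latRed_eq_zero_iff]
    rintro ⟨z, hz⟩
    exact hy0 ⟨z, by rw [hz, natCast_zsmul]⟩
  · exact (anPackage (N' * p) p hN').isKum u u.2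
  · intro ℓ _ hℓ
    have h := heckeU_div_mem y u hu ℓ hℓ.1 hℓ.2.2 _ (hE ℓ hℓ)
    rw [mem_FLu, Units.val_div_eq_div_val, Units.val_zpow_eq_zpow_val] at h
    exact h
  · exact polyRel_mem y u hu 2 Nat.prime_two (Dvd.dvd.mul_right h2 p) R hRy
  · exact NmL_NmL_div_mem y u hu p hp (Dvd.intro_left N' rfl) hUp
  · exact isNew_of_wop hxy hp hpN u (wop_add_cohU_eq_zero N' p hxy hp y u hu
      (tauW_eq_smul N' p hxy hp hpN W h2 hp2 a R ha hnew y hE hRy))

end Fermat.Agent.MR.H.In
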