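import Fermat.Agent.MR.H.In.Defs
import Fermat.Agent.TOR.AnU.Main
import Fermat.Agent.TOR.GB.Norm
import Fermat.Agent.GAL.Mod.Gen
import Fermat.Agent.GAL.AN.Main

/-!
# MR / H / In / Closure : `Rel` is stable under products, inverses, Galois conjugation.
-/

set_option autoImplicit false

open ModularCurve AlgebraicCurve

noncomputable section

namespace Fermat.Agent.MR.H.In

open Fermat.Agent.GAL Fermat.Agent.GR Fermat.Agent.MR Fermat.Agent.TOR.GB Fermat.Agent.S24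

variable {M₁ p : ℕ} [NeZero M₁] [NeZero p] {good : Set ℕ} {a : ℕ → ℤ} {R : Polynomial ℤ}

theorem Closure_NmL_zero (r : ℕ) [NeZero r] : NmL Qb r (0 : LaurentSeries Qb) = 0 := by
  have h1 := NmL_qExpand (R := Qb) r (0 : LaurentSeries Qb)
  rw [map_zero, zero_pow (NeZero.ne r)] at h1
  exact h1

theorem Closure_map_inv (f : LaurentSeries Qb →* LaurentSeries Qb) {u : LaurentSeries Qb}
    (hu : u ≠ 0) : f u⁻¹ = (f u)⁻¹ :=
  eq_inv_of_mul_eq_one_left (by rw [← map_mul, inv_mul_cancel₀ hu, map_one])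

theorem Closure_NmL_inv (r : ℕ) [NeZero r] (u : LaurentSeries Qb) :
    NmL Qb r u⁻¹ = (NmL Qb r u)⁻¹ := by
  rcases eq_or_ne u 0 with rfl | hu
  · rw [inv_zero, Closure_NmL_zero, inv_zero]
  · exact Closure_map_inv _ hu

theorem Closure_galS_NmL (r : ℕ) [NeZero r] (σ : GQ) (u : LaurentSeries Qb) :
    galS σ (NmL Qb r u) = NmL Qb r (galS σ u) :=
  NmL_coeffMap _ r u

theorem Closure_iter_one (r : ℕ) [NeZero r] (i : ℕ) :
    (NmL Qb r)^[i] (1 : LaurentSeries Qb) = 1 := by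
  induction i with
  | zero => rfl
  | succ i ih => rw [Function.iterate_succ_apply', ih, map_one]

theorem Closure_iter_mul (r : ℕ) [NeZero r] (i : ℕ) (u v : LaurentSeries Qb) :
    (NmL Qb r)^[i] (u * v) = (NmL Qb r)^[i] u * (NmL Qb r)^[i] v := by
  induction i with
  | zero => rfl
  | succ i ih => rw [Function.iterate_succ_apply', Function.iterate_succ_apply',
      Function.iterate_succ_apply', ih, map_mul]

theorem Closure_iter_inv (r : ℕ) [NeZero r] (i : ℕ) (u : LaurentSeries Qb) :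
    (NmL Qb r)^[i] u⁻¹ = ((NmL Qb r)^[i] u)⁻¹ := by
  induction i with
  | zero => rfl
  | succ i ih => rw [Function.iterate_succ_apply', Function.iterate_succ_apply', ih,
      Closure_NmL_inv]

theorem Closure_iter_galS (r : ℕ) [NeZero r] (i : ℕ) (σ : GQ) (u : LaurentSeries Qb) :
    (NmL Qb r)^[i] (galS σ u) = galS σ ((NmL Qb r)^[i] u) := by
  induction i with
  | zero => rfl
  | succ i ih => rw [Function.iterate_succ_apply', Function.iterate_succ_apply', ih,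
      Closure_galS_NmL]

theorem polyRel_one (r : ℕ) [NeZero r] (R : Polynomial ℤ) : polyRel r R 1 = 1 := by
  unfold polyRel
  refine Finset.prod_eq_one fun i _ => ?_
  rw [Closure_iter_one, one_zpow]

theorem polyRel_mul (r : ℕ) [NeZero r] (R : Polynomial ℤ) (u v : LaurentSeries Qb) :
    polyRel r R (u * v) = polyRel r R u * polyRel r R v := by
  unfold polyRel
  rw [← Finset.prod_mul_distrib]
  refine Finset.prod_congr rfl fun i _ => ?_
  rw [Closure_iter_mul, mul_zpow]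

theorem polyRel_inv (r : ℕ) [NeZero r] (R : Polynomial ℤ) (u : LaurentSeries Qb) :
    polyRel r R u⁻¹ = (polyRel r R u)⁻¹ := by
  unfold polyRel
  rw [← Finset.prod_inv_distrib]
  refine Finset.prod_congr rfl fun i _ => ?_
  rw [Closure_iter_inv, inv_zpow]

/-- (`NmL_coeffMap`) -/
theorem polyRel_galS (r : ℕ) [NeZero r] (R : Polynomial ℤ) (σ : GQ) (u : LaurentSeries Qb) :
    polyRel r R (galS σ u) = galS σ (polyRel r R u) := by
  unfold polyRel
  rw [map_prod]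
  refine Finset.prod_congr rfl fun i _ => ?_
  rw [Closure_iter_galS, map_zpow₀]

theorem Rel.one : Rel M₁ p good a R 1 := by
  refine ⟨isKum_one, ?_, ?_, ?_, ?_⟩
  · intro ℓ _ _
    rw [map_one, one_zpow, div_one]
    exact one_mem _
  · rw [polyRel_one]
    exact one_mem _
  · rw [map_one, map_one, div_one]
    exact one_mem _
  · intro h
    refine ⟨1, 1, one_mem _, ?_⟩
    have e : (⟨(1 : LaurentSeries Qb) ^ p, h⟩ : FN (M₁ * p)) = 1 := Subtype.ext (one_pow p)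
    rw [e, map_one, one_pow, map_one, map_one]
    rfl

theorem Rel.mul {u v : LaurentSeries Qb} (hu : Rel M₁ p good a R u) (hv : Rel M₁ p good a R v) :
    Rel M₁ p good a R (u * v) := by
  refine ⟨hu.kum.mul hv.kum, ?_, ?_, ?_, ?_⟩
  · intro ℓ _ hℓ
    rw [map_mul, mul_zpow, mul_div_mul_comm]
    exact mul_mem (hu.hT ℓ hℓ) (hv.hT ℓ hℓ)
  · rw [polyRel_mul]
    exact mul_mem hu.hU2 hv.hU2
  · rw [map_mul, map_mul, mul_div_mul_comm]
    exact mul_mem hu.hUp hv.hUp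
  · intro h
    obtain ⟨c₁, g₁, hg₁, e₁⟩ := hu.new hu.kum.pow_mem
    obtain ⟨c₂, g₂, hg₂, e₂⟩ := hv.new hv.kum.pow_mem
    refine ⟨c₁ * c₂, g₁ * g₂, mul_mem hg₁ hg₂, ?_⟩
    have e : (⟨(u * v) ^ p, h⟩ : FN (M₁ * p)) =
        (⟨u ^ p, hu.kum.pow_mem⟩ : FN (M₁ * p)) * ⟨v ^ p, hv.kum.pow_mem⟩ :=
      Subtype.ext (mul_pow u v p)
    rw [e, map_mul, mul_pow u v p, map_mul, MulMemClass.coe_mul, map_mul, mul_pow,
      mul_mul_mul_comm, e₁, e₂, mul_mul_mul_comm]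

theorem Rel.inv {u : LaurentSeries Qb} (hu : Rel M₁ p good a R u) : Rel M₁ p good a R u⁻¹ := by
  have hu0 : u ≠ 0 := hu.kum.ne_zero
  refine ⟨hu.kum.inv, ?_, ?_, ?_, ?_⟩
  · intro ℓ _ hℓ
    rw [Closure_map_inv _ hu0, inv_zpow, inv_div_inv, ← inv_div]
    exact inv_mem (hu.hT ℓ hℓ)
  · rw [polyRel_inv]
    exact inv_mem hu.hU2
  · rw [Closure_NmL_inv, Closure_NmL_inv, inv_div_inv, ← inv_div]
    exact inv_mem hu.hUp
  · intro h
    obtain ⟨c, g, hg, e₁⟩ := hu.new hu.kum.pow_mem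
    refine ⟨c⁻¹, g⁻¹, inv_mem hg, ?_⟩
    have e : (⟨u⁻¹ ^ p, h⟩ : FN (M₁ * p)) = (⟨u ^ p, hu.kum.pow_mem⟩ : FN (M₁ * p))⁻¹ :=
      Subtype.ext (inv_pow u p)
    have e2 : (((wq M₁ p (⟨u ^ p, hu.kum.pow_mem⟩ : FN (M₁ * p)))⁻¹ : FN (M₁ * p)) :
        LaurentSeries Qb) = ((wq M₁ p (⟨u ^ p, hu.kum.pow_mem⟩ : FN (M₁ * p)) : FN (M₁ * p)) :
        LaurentSeries Qb)⁻¹ := rfl
    rw [e, map_inv₀, e2, inv_pow u p, Closure_NmL_inv, ← mul_inv, e₁, mul_inv, map_inv₀, inv_pow]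

theorem Rel.pow {u : LaurentSeries Qb} (hu : Rel M₁ p good a R u) (k : ℕ) :
    Rel M₁ p good a R (u ^ k) := by
  induction k with
  | zero => rw [pow_zero]; exact Rel.one
  | succ k ih => rw [pow_succ]; exact ih.mul hu

/-- (`galS_heckeS`, `NmL_coeffMap`, `galS_mem_FL`, `TOR.GB.wq_galF`, `coe_galF`) -/
theorem Rel.galS (hp : p.Prime) (hpM : ¬ p ∣ M₁) {u : LaurentSeries Qb}
    (hu : Rel M₁ p good a R u) (σ : GQ) : Rel M₁ p good a R (galS σ u) := by
  refine ⟨hu.kum.galS σ, ?_, ?_, ?_, ?_⟩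
  · intro ℓ _ hℓ
    rw [← galS_heckeS, ← map_zpow₀, ← map_div₀]
    exact galS_mem_FL σ (hu.hT ℓ hℓ)
  · rw [polyRel_galS]
    exact galS_mem_FL σ hu.hU2
  · rw [← Closure_galS_NmL, ← Closure_galS_NmL, ← map_div₀]
    exact galS_mem_FL σ hu.hUp
  · intro h
    obtain ⟨c, g, hg, e₁⟩ := hu.new hu.kum.pow_mem
    refine ⟨σ c, Fermat.Agent.GAL.galS σ g, galS_mem_FL σ hg, ?_⟩
    have e : (⟨Fermat.Agent.GAL.galS σ u ^ p, h⟩ : FN (M₁ * p)) =
        galF (M₁ * p) σ (⟨u ^ p, hu.kum.pow_mem⟩ : FN (M₁ * p)) :=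
      Subtype.ext (by rw [coe_galF]; exact (map_pow _ _ _).symm)
    rw [e, wq_galF hp hpM, coe_galF, ← map_pow, ← Closure_galS_NmL, ← map_mul, e₁, map_mul,
      galS_C, map_pow]

end Fermat.Agent.MR.H.In
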