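import Fermat.Agent.MR.H.In.Defs
import Fermat.Agent.TOR.AnU.Main
import Fermat.Agent.TOR.GB.Norm
import Fermat.Agent.GAL.Mod.Gen
import Fermat.Agent.GAL.AN.Main

/-!
# MR / H / In / ClosureFL : `Rel` holds on `FL Qb (M₁ p) \ 0`.
-/

set_option autoImplicit false

open ModularCurve AlgebraicCurve

noncomputable section

namespace Fermat.Agent.MR.H.In

open Fermat.Agent.GAL Fermat.Agent.GR Fermat.Agent.MR Fermat.Agent.TOR.GB Fermat.Agent.S24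

variable {M₁ p : ℕ} [NeZero M₁] [NeZero p] {good : Set ℕ} {a : ℕ → ℤ} {R : Polynomial ℤ}

/-- `U_r` preserves the function field of level `M`, `r ∣ M`.
PROOF: `u = 0`: `NmL 0 = 0` (as in `TOR.GB.NmL_mem_FL`).  `u ≠ 0`: `u' := Units.mk0 u` lies in `AN.Van M 1`‑style package:
use `n := 2` (any `n` with `NeZero`): `u' ∈ AN.Van M n` (`(AN.anPackage M n hM).FL_le`), `chrFun u' = 0`
(`chr_eq_one_iff` / `AN.chrFun_eq_zero_iff`), `TOR.nmU_mem_Van`, `TOR.chrFun_nmU` : `chrFun (nmU r u') = cohU (0) = 0` (`map_zero`), hence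
`nmU r u' ∈ FL` by `chrFun_eq_zero_iff` again  (same trick as `GAL.AnPackage.hecke_FL`). -/
theorem NmL_mem_FL_of_dvd {M : ℕ} [NeZero M] (hM : AdmLevel M) {r : ℕ} [NeZero r] (hr : r.Prime)
    (hrM : r ∣ M) {u : LaurentSeries Qb} (hu : u ∈ FL Qb M) : NmL Qb r u ∈ FL Qb M := by
  rcases eq_or_ne u 0 with rfl | hu0
  · have h0 : NmL Qb r (0 : LaurentSeries Qb) = 0 := by
      have h1 := NmL_qExpand (R := Qb) r (0 : LaurentSeries Qb)
      rw [map_zero, zero_pow (NeZero.ne r)] at h1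
      exact h1
    rw [h0]
    exact zero_mem _
  · have hV : Units.mk0 u hu0 ∈ AN.Van M 2 := ⟨0, 0, AN.isReal_of_mem_FL (Units.mk0 u hu0) hu⟩
    have h1 : AN.chrFun (⟨Units.mk0 u hu0, hV⟩ : AN.Van M 2) = 0 :=
      (AN.chrFun_eq_zero_iff _).2 hu
    have h2 := TOR.chrFun_nmU hr hrM (⟨Units.mk0 u hu0, hV⟩ : AN.Van M 2)
    rw [h1] at h2
    have h3 : AN.chrFun (⟨_, TOR.nmU_mem_Van hr hrM (Units.mk0 u hu0) hV⟩ : AN.Van M 2) = 0 := by
      apply Subtype.ext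
      refine h2.trans ?_
      exact map_zero _
    exact (AN.chrFun_eq_zero_iff _).1 h3

/-- (`isKum_of_mem`, `AnPackage.hecke_FL`, `NmL_mem_FL_of_dvd`, `TOR.GB.wq_mul_NmL_mem`: `w(u^p) U(u^p) = (w u · U u)^p`) -/
theorem Rel.of_mem_FL (hM : AdmLevel M₁) (hp : p.Prime) (hpM : ¬ p ∣ M₁) (h2 : 2 ∣ M₁)
    (hgood : ∀ ℓ ∈ good, ℓ.Prime ∧ ¬ ℓ ∣ M₁ * p) {u : LaurentSeries Qb}
    (hu : u ∈ FL Qb (M₁ * p)) (hu0 : u ≠ 0) : Rel M₁ p good a R u := by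
  have hM' : AdmLevel (M₁ * p) := by
    rcases hM with h | h
    · exact Or.inl (h.mul_right p)
    · exact Or.inr (h.mul_right p)
  refine ⟨isKum_of_mem hu hu0, ?_, ?_, ?_, ?_⟩
  · intro ℓ _ hℓ
    obtain ⟨hℓp, hℓM⟩ := hgood ℓ hℓ
    have h1 : heckeS Qb ℓ u ∈ FL Qb (M₁ * p) :=
      (AN.anPackage (M₁ * p) p hM').hecke_FL ℓ hℓp hℓM (Units.mk0 u hu0) hu
    exact div_mem h1 (zpow_mem hu _)
  · have hit : ∀ i : ℕ, (NmL Qb 2)^[i] u ∈ FL Qb (M₁ * p) := by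
      intro i
      induction i with
      | zero => exact hu
      | succ i ih =>
        rw [Function.iterate_succ_apply']
        exact NmL_mem_FL_of_dvd hM' Nat.prime_two (h2.mul_right p) ih
    unfold polyRel
    exact prod_mem fun i _ => zpow_mem (hit i) _
  · exact div_mem (NmL_mem_FL hp hpM (NmL_mem_FL hp hpM hu)) hu
  · intro h
    refine ⟨1, ((wq M₁ p ⟨u, hu⟩ : FN (M₁ * p)) : LaurentSeries Qb) * NmL Qb p u,
      wq_mul_NmL_mem hp hpM ⟨u, hu⟩, ?_⟩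
    have e1 : (⟨u ^ p, h⟩ : FN (M₁ * p)) = (⟨u, hu⟩ : FN (M₁ * p)) ^ p := rfl
    rw [e1, map_pow, map_pow, map_one, one_mul, mul_pow]
    rfl

end Fermat.Agent.MR.H.In
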