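import Mathlib

/-!
# MR / H / In / Lucas : powers of a root of a quadratic equation satisfy a quadratic equation with universal coefficients
-/

set_option autoImplicit false

namespace Fermat.Agent.MR.H.In

open Polynomial

/-- the Lucas sequence `V_j(t, d) = α^j + β^j`, `α + β = t`, `α β = d`. -/
def lucasV {F : Type*} [CommRing F] (t d : F) : ℕ → F
  | 0 => 2
  | 1 => t
  | (j + 2) => t * lucasV t d (j + 1) - d * lucasV t d j

theorem lucas_dvd {F : Type*} [CommRing F] (t d : F) (j : ℕ) :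
    ((X ^ 2 - C t * X + C d : F[X]) ∣ X ^ j + (C t - X) ^ j - C (lucasV t d j)) ∧
    ((X ^ 2 - C t * X + C d : F[X]) ∣ X ^ (j + 1) + (C t - X) ^ (j + 1) - C (lucasV t d (j + 1))) := by
  induction j with
  | zero =>
    constructor
    · have : (X ^ 0 + (C t - X) ^ 0 - C (lucasV t d 0) : F[X]) = 0 := by
        simp only [lucasV, pow_zero]
        rw [show (C (2 : F) : F[X]) = 2 from map_ofNat C 2]
        ring
      rw [this]; exact dvd_zero _
    · have : (X ^ (0 + 1) + (C t - X) ^ (0 + 1) - C (lucasV t d (0 + 1)) : F[X]) = 0 := by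
        simp only [lucasV, zero_add, pow_one]
        ring
      rw [this]; exact dvd_zero _
  | succ j ih =>
    refine ⟨ih.2, ?_⟩
    obtain ⟨⟨a, ha⟩, ⟨b, hb⟩⟩ := ih
    refine ⟨C t * b - C d * a + (X ^ j + (C t - X) ^ j), ?_⟩
    have hV : lucasV t d (j + 1 + 1) = t * lucasV t d (j + 1) - d * lucasV t d j := rfl
    rw [hV, C_sub, C_mul, C_mul]
    linear_combination (C t) * hb - (C d) * ha

theorem lucas_dvd' {F : Type*} [CommRing F] (t d : F) (j : ℕ) :
    (X ^ 2 - C t * X + C d : F[X]) ∣ X ^ j * X ^ j - C (lucasV t d j) * X ^ j + C (d ^ j) := by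
  obtain ⟨a, ha⟩ := (lucas_dvd t d j).1
  obtain ⟨b, hb⟩ := sub_dvd_pow_sub_pow (X * (C t - X) : F[X]) (C d) j
  refine ⟨X ^ j * a + b, ?_⟩
  rw [C_pow]
  have h1 : (X * (C t - X) : F[X]) ^ j = X ^ j * (C t - X) ^ j := mul_pow _ _ _
  rw [h1] at hb
  linear_combination (X ^ j) * ha - hb

/-- **(LUCAS)** if `s² - t s + d = 0` then `(s^j)² - V_j(t,d) s^j + d^j = 0`. -/
theorem pow_quadratic {F A : Type*} [CommRing F] [Ring A] [Algebra F A] (s : A) (t d : F)
    (h : s * s - t • s + d • (1 : A) = 0) (j : ℕ) :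
    s ^ j * s ^ j - lucasV t d j • s ^ j + d ^ j • (1 : A) = 0 := by
  obtain ⟨c, hc⟩ := lucas_dvd' t d j
  have h0 : aeval s (X ^ 2 - C t * X + C d : F[X]) = 0 := by
    simp only [map_add, map_sub, map_mul, map_pow, aeval_X, aeval_C]
    rw [← h, pow_two, Algebra.smul_def, Algebra.smul_def, mul_one]
  have h1 := congrArg (aeval s) hc
  rw [map_mul, h0, zero_mul] at h1
  simp only [map_add, map_sub, map_mul, map_pow, aeval_X, aeval_C] at h1
  rw [← h1, Algebra.smul_def, Algebra.smul_def, mul_one, map_pow]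

end Fermat.Agent.MR.H.In
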