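import Fermat.Agent.MR.H.In
import Fermat.Agent.MR.H.In.Analytic
import Fermat.Agent.MR.H.In.Closure
import Fermat.Agent.MR.H.In.ClosureFL

/-!
# MR / H / In / Main : proof of `MR.InStatement` ([H-IN] + [H-NEW])

`exists_analytic` (IN-2) gives `u₀`; `h_in_core` (IN-3: Eichler--Shimura, weak Chebotarev, Boston--Lenstra--Ribet) embeds `E[p]` in the Galois
module generated by the class of `u₀`; the closure clause of `h_in_core`, applied to the subgroup `relSub` (IN-1), transports the relations.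
-/

set_option autoImplicit false

open Fermat.Agent.GAL Fermat.Agent.GAL.AN

noncomputable section

namespace Fermat.Agent.MR.H.In

open Fermat.Agent.MR Fermat.Agent.MR.H

/-- (IN-1) the subgroup of the roots which satisfy the relations. -/
def relSub (M₁ p : ℕ) [NeZero M₁] [NeZero p] (good : Set ℕ) (a : ℕ → ℤ) (R : Polynomial ℤ) :
    Subgroup LU where
  carrier := {u | Rel M₁ p good a R (u : LaurentSeries Qb)}
  mul_mem' := by
    intro u v hu hv
    rw [Set.mem_setOf_eq, Units.val_mul]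
    exact Rel.mul hu hv
  one_mem' := Rel.one
  inv_mem' := by
    intro u hu
    rw [Set.mem_setOf_eq, Units.val_inv_eq_inv_val]
    exact Rel.inv hu

theorem mem_relSub {M₁ p : ℕ} [NeZero M₁] [NeZero p] {good : Set ℕ} {a : ℕ → ℤ}
    {R : Polynomial ℤ} {u : LU} :
    u ∈ relSub M₁ p good a R ↔ Rel M₁ p good a R (u : LaurentSeries Qb) := Iff.rfl

/-- **[H-IN] + [H-NEW]** -/
theorem inStatement : InStatement := by
  intro E _ W hW p _ hp hp5 hirr K _ _ _ N' _ a R hpN hN h2 ha hR hap hocc hnew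
  have hp2 : p ≠ 2 := by omega
  obtain ⟨u₀, hne, hrel⟩ := exists_analytic W hp hp2 N' a R hpN hN h2 ha hR hap hocc hnew
  obtain ⟨J, hadd, hgal, hinj, hcl⟩ := h_in_core (N' * p) p (admLevel_mul hN p) hp hp2
    (Dvd.intro_left N' rfl) E hW hirr u₀ u₀.2 hne ∅ (by
      intro ℓ _ hℓ hℓN hg _
      rw [mem_FLu, Units.val_div_eq_div_val, Units.val_zpow_eq_zpow_val]
      exact hrel.hT ℓ ⟨hℓ, hg, hℓN⟩)
  have hJ : ∀ P, Rel N' p (goodSet W (N' * p)) (fun ℓ => W.apOfModel ℓ) R
      ((J P : LU) : LaurentSeries Qb) :=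
    hcl (relSub N' p (goodSet W (N' * p)) (fun ℓ => W.apOfModel ℓ) R)
      (fun u hu => Rel.of_mem_FL hN hp hpN h2 (fun ℓ hℓ => ⟨hℓ.1, hℓ.2.2⟩) hu u.ne_zero)
      (fun σ u hu => Rel.galS hp hpN hu σ) hrel
  refine ⟨{ j := fun P => ((J P : LU) : LaurentSeries Qb)
            kum := fun Q => (hJ Q).kum
            add := ?_
            inj := fun Q hQ => hinj Q hQ
            gal := ?_
            hT := fun ℓ _ hℓ Q => (hJ Q).hT ℓ hℓ
            hU2 := fun Q => (hJ Q).hU2
            hUp := fun Q => (hJ Q).hUp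
            new := fun Q => (hJ Q).new }⟩
  · intro Q Q'
    have h := hadd Q Q'
    rw [mem_FLu, Units.val_div_eq_div_val, Units.val_mul] at h
    exact h
  · intro σ Q
    have h := hgal σ Q
    rw [mem_FLu, Units.val_div_eq_div_val] at h
    exact h

end Fermat.Agent.MR.H.In
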