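import Fermat.Agent.MR.H.In
import Fermat.Agent.MR.H.In.Closure
import Fermat.Agent.MR.H.In.ClosureFL
import Fermat.Agent.MR.H.In.LatY
import Fermat.Agent.MR.H.In.VanY
import Fermat.Agent.MR.H.NewEig

/-!
# MR / H / In / MainH : `MR.InStatement` (hedge assembly by helper44; the official file is helper9's `In/Main.lean`)
-/

set_option autoImplicit false
set_option linter.style.haveILetI false

open WeierstrassCurve WeierstrassCurve.Affine WeierstrassCurve.Affine.Point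
open Fermat.Agent.GAL Fermat.Agent.GAL.AN Fermat.Agent.GAL.HK

noncomputable section

namespace Fermat.Agent.MR.H.In

open Fermat.Agent.MR.H Fermat.Agent.MR

theorem mainH_adm {N' : ℕ} (p : ℕ) (h : AdmLevel N') : AdmLevel (N' * p) := by
  rcases h with h | h
  · exact Or.inl (h.mul_right p)
  · exact Or.inr (h.mul_right p)

/-- **(IN-2)** the analytic input. -/
theorem exists_analyticH (W : WeierstrassCurve ℤ) (p : ℕ) [NeZero p] (hp : p.Prime)
    (K : Type) [Field K] [IsAlgClosed K] [CharP K p] (N' : ℕ) [NeZero N'] (a : ℕ → K)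
    (R : Polynomial ℤ) (hpN : ¬ p ∣ N') (hAdm : AdmLevel N') (h2 : 2 ∣ N')
    (ha : ∀ ℓ ∈ goodSet W (N' * p), a ℓ = ((W.apOfModel ℓ : ℤ) : K))
    (hR : Polynomial.aeval (a 2) R = 0) (hap : a p ^ 2 = 1)
    (hOcc : Occ K (N' * p) Set.univ a)
    (hnew : ∀ α : K, Polynomial.aeval α R = 0 →
      ¬ Occ K N' (insert 2 (goodSet W (N' * p))) (Function.update a 2 α)) :
    ∃ u0 : Van (N' * p) p, ((u0 : LU) : LaurentSeries Qb) ∉ FL Qb (N' * p) ∧
      Rel N' p (goodSet W (N' * p)) (fun ℓ => W.apOfModel ℓ) R ((u0 : LU) : LaurentSeries Qb) := by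
  have hAdm' := mainH_adm p hAdm
  obtain ⟨y, hy, hE, hRy, hUy⟩ := exists_latY W hp (N' * p) a R ha hR hap hOcc
  obtain ⟨u, hu⟩ := chrFun_surjective hAdm' (latRed (N' * p) p y)
  refine ⟨u, fun hmem => hy ?_, ?_, ?_, ?_, ?_, ?_⟩
  · have h0 := (chrFun_eq_zero_iff u).mpr hmem
    rw [hu, latRed_eq_zero_iff] at h0
    obtain ⟨z, hz⟩ := h0
    exact ⟨z, by rw [hz, natCast_zsmul]⟩
  · exact (anPackage (N' * p) p hAdm').isKum u u.2
  · intro ℓ _ hℓ
    have h := heckeU_div_mem y u hu ℓ hℓ.1 hℓ.2.2 (W.apOfModel ℓ) (hE ℓ hℓ)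
    rw [mem_FLu, Units.val_div_eq_div_val, Units.val_zpow_eq_zpow_val] at h
    exact h
  · exact polyRel_mem y u hu 2 Nat.prime_two (h2.mul_right p) R hRy
  · exact NmL_NmL_div_mem y u hu p hp (Dvd.intro_left N' rfl) hUy
  · exact isNew_of_lat N' p W hp hpN h2 a R ha hnew y hE hRy u hu

/-- the subgroup of the roots satisfying all the relations. -/
def relSubH (M₁ p : ℕ) [NeZero M₁] [NeZero p] (good : Set ℕ) (a : ℕ → ℤ) (R : Polynomial ℤ) :
    Subgroup LU where
  carrier := {u | Rel M₁ p good a R ((u : LU) : LaurentSeries Qb)}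
  one_mem' := Rel.one
  mul_mem' := fun {u v} hu hv => by
    show Rel M₁ p good a R (((u * v : LU)) : LaurentSeries Qb)
    rw [Units.val_mul]
    exact Rel.mul hu hv
  inv_mem' := fun {u} hu => by
    show Rel M₁ p good a R (((u⁻¹ : LU)) : LaurentSeries Qb)
    rw [Units.val_inv_eq_inv_val]
    exact Rel.inv hu

/-- **[H-IN] + [H-NEW]**. -/
theorem inStatementH : InStatement := by
  intro E _ W hW p _ hp hp5 hirr K _ _ _ N' _ a R hpN hAdm h2 ha hR hap hOcc hnew
  have hAdm' := mainH_adm p hAdm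
  have hp2 : p ≠ 2 := by omega
  obtain ⟨u0, hne, hrel⟩ := exists_analyticH W p hp K N' a R hpN hAdm h2 ha hR hap hOcc hnew
  obtain ⟨J, hadd, hgal, hinj, hcl⟩ := h_in_core (N' * p) p hAdm' hp hp2 (Dvd.intro_left N' rfl) E
    hW hirr (u0 : LU) u0.2 hne ∅ (by
      intro ℓ _ hℓ hnd hg _
      rw [mem_FLu, Units.val_div_eq_div_val, Units.val_zpow_eq_zpow_val]
      exact hrel.hT ℓ ⟨hℓ, hg, hnd⟩)
  have hJ : ∀ Q, J Q ∈ relSubH N' p (goodSet W (N' * p)) (fun ℓ => W.apOfModel ℓ) R :=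
    hcl _ (fun u hu => Rel.of_mem_FL hAdm hp hpN h2 (fun ℓ h => ⟨h.1, h.2.2⟩) hu u.ne_zero)
      (fun σ u hu => Rel.galS hp hpN hu σ) hrel
  refine ⟨{
    j := fun Q => ((J Q : LU) : LaurentSeries Qb)
    kum := fun Q => (hJ Q).kum
    add := fun Q Q' => ?_
    inj := fun Q h => hinj Q h
    gal := fun σ Q => ?_
    hT := fun ℓ _ hℓ Q => (hJ Q).hT ℓ hℓ
    hU2 := fun Q => (hJ Q).hU2
    hUp := fun Q => (hJ Q).hUp
    new := fun Q => (hJ Q).new }⟩
  · have h := hadd Q Q'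
    rw [mem_FLu, Units.val_div_eq_div_val, Units.val_mul] at h
    exact h
  · have h := hgal σ Q
    rw [mem_FLu, Units.val_div_eq_div_val] at h
    exact h

end Fermat.Agent.MR.H.In
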